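/-
S23 (integral structure on cusp forms of level Gamma0(N)): shared definitions.
All sub-lemma files of the S23 effort import this file.
-/
import Mathlib.NumberTheory.ModularForms.NormTrace
import Mathlib.NumberTheory.ModularForms.CongruenceSubgroups
import Mathlib.RingTheory.PowerSeries.Basic

set_option autoImplicit false

namespace Fermat.Agent.S23

open UpperHalfPlane SlashInvariantForm
open scoped MatrixGroups ModularForm

/-- A complex power series has *bounded denominators* if some positive integer multiple of it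
has integer coefficients. -/
def BddDenom (u : PowerSeries ℂ) : Prop :=
  ∃ M : ℕ, 0 < M ∧ ∃ a : PowerSeries ℤ, (M : ℂ) • u = a.map (Int.castRingHom ℂ)

section Translates

variable {𝒢 : Subgroup (GL (Fin 2) ℝ)} [𝒢.IsArithmetic]
variable {F G : Type*} [FunLike F ℍ ℂ] [FunLike G ℍ ℂ] {k w : ℤ}
variable [SlashInvariantFormClass F 𝒢 k] [SlashInvariantFormClass G 𝒢 w]

/-- The index of (the intersection with `SL(2,ℤ)` of) `𝒢` in `SL(2,ℤ)`. -/
noncomputable def idx (𝒢 : Subgroup (GL (Fin 2) ℝ)) : ℕ := Nat.card (𝒮ℒ ⧸ (𝒢.subgroupOf 𝒮ℒ))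

/-- `m`-th elementary symmetric function of the `SL(2,ℤ)`-translates of `f`. -/
noncomputable def esymmFun (f : F) (m : ℕ) : ℍ → ℂ :=
  letI := Fintype.ofFinite (𝒮ℒ ⧸ (𝒢.subgroupOf 𝒮ℒ))
  ∑ T ∈ (Finset.univ : Finset (𝒮ℒ ⧸ (𝒢.subgroupOf 𝒮ℒ))).powersetCard m,
    ∏ q ∈ T, quotientFunc f q

open scoped Classical in
/-- Lagrange-interpolation coefficient: `∑_i f_i · e_m (g_l : l ≠ i)`, the sums being over the
`SL(2,ℤ)`-translates of `f` and `g`. -/
noncomputable def lagrFun (f : F) (g : G) (m : ℕ) : ℍ → ℂ :=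
  letI := Fintype.ofFinite (𝒮ℒ ⧸ (𝒢.subgroupOf 𝒮ℒ))
  ∑ i : 𝒮ℒ ⧸ (𝒢.subgroupOf 𝒮ℒ), quotientFunc f i *
    ∑ T ∈ ((Finset.univ : Finset (𝒮ℒ ⧸ (𝒢.subgroupOf 𝒮ℒ))).erase i).powersetCard m,
      ∏ q ∈ T, quotientFunc g q

open scoped Classical in
/-- The "different" `∏_{l ≠ 1} (g - g_l)`, the product being over the nontrivial
`SL(2,ℤ)`-translates of `g`. -/
noncomputable def diffFun (g : G) : ℍ → ℂ :=
  letI := Fintype.ofFinite (𝒮ℒ ⧸ (𝒢.subgroupOf 𝒮ℒ))
  ∏ q ∈ (Finset.univ : Finset (𝒮ℒ ⧸ (𝒢.subgroupOf 𝒮ℒ))).erase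
      (QuotientGroup.mk (1 : 𝒮ℒ)),
    ((g : ℍ → ℂ) - quotientFunc g q)

end Translates

end Fermat.Agent.S23
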