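/-
S23, part P6: `ℤ⟦X⟧` is integrally closed, in the concrete form needed for the
bounded-denominator step: a complex power series `u` which is a quotient of two integral power
series and is a root of a monic polynomial with coefficients in `ℤ⟦X⟧` is itself integral.
(`ℤ⟦X⟧` is a UFD by Mathlib's `PowerSeries` instance for principal ideal domains.)
-/
import Mathlib.RingTheory.PowerSeries.Ideal
import Mathlib.RingTheory.Polynomial.RationalRoot
import Mathlib.RingTheory.Localization.FractionRing
import Mathlib.Data.Complex.Basic
import Fermat.Agent.S23.Defs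

set_option autoImplicit false

namespace Fermat.Agent.S23

namespace P6

/-- The coefficientwise cast `ℤ⟦X⟧ → ℂ⟦X⟧` is injective. -/
theorem map_intCast_injective :
    Function.Injective (PowerSeries.map (Int.castRingHom ℂ)) := by
  intro x y hxy
  ext n
  have h := congrArg (PowerSeries.coeff n) hxy
  simpa using h

end P6

/-- `ℤ⟦X⟧` is integrally closed, concretely: if `u * d = a` with `d ≠ 0`, `a` integral power
series, and `u` is a root of a monic polynomial over `ℤ⟦X⟧`, then `u` has integer coefficients. -/
theorem int_powerSeries_of_integral (u : PowerSeries ℂ) (d a : PowerSeries ℤ) (hd : d ≠ 0)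
    (hud : u * d.map (Int.castRingHom ℂ) = a.map (Int.castRingHom ℂ))
    (p : Polynomial (PowerSeries ℤ)) (hp : p.Monic)
    (hpu : Polynomial.eval₂ (PowerSeries.map (Int.castRingHom ℂ)) u p = 0) :
    ∃ b : PowerSeries ℤ, u = b.map (Int.castRingHom ℂ) := by
  classical
  -- notation
  set φ : PowerSeries ℤ →+* PowerSeries ℂ := PowerSeries.map (Int.castRingHom ℂ) with hφ
  have hφinj : Function.Injective φ := P6.map_intCast_injective
  let K := FractionRing (PowerSeries ℤ)
  let L := FractionRing (PowerSeries ℂ)
  let g : PowerSeries ℤ →+* L := (algebraMap (PowerSeries ℂ) L).comp φ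
  have hginj : Function.Injective g :=
    (IsFractionRing.injective (PowerSeries ℂ) L).comp hφinj
  let ψ : K →+* L := IsFractionRing.lift hginj
  have hψ : ∀ x : PowerSeries ℤ, ψ (algebraMap (PowerSeries ℤ) K x) = g x := fun x =>
    IsFractionRing.lift_algebraMap hginj x
  have hgd : g d ≠ 0 := by
    intro h
    exact hd (hginj (by rw [h, map_zero]))
  have hdK : algebraMap (PowerSeries ℤ) K d ≠ 0 := by
    intro h
    exact hd (IsFractionRing.injective (PowerSeries ℤ) K (by rw [h, map_zero]))
  -- the candidate element of the fraction field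
  let y : K := algebraMap (PowerSeries ℤ) K a / algebraMap (PowerSeries ℤ) K d
  have hψy : ψ y = algebraMap (PowerSeries ℂ) L u := by
    have h1 : g a = algebraMap (PowerSeries ℂ) L u * g d := by
      change algebraMap (PowerSeries ℂ) L (φ a) = algebraMap (PowerSeries ℂ) L u *
        algebraMap (PowerSeries ℂ) L (φ d)
      rw [← map_mul, hud]
    change ψ (algebraMap (PowerSeries ℤ) K a / algebraMap (PowerSeries ℤ) K d) = _
    rw [map_div₀, hψ, hψ, h1, mul_div_assoc, div_self hgd, mul_one]
  -- `y` is integral over `ℤ⟦X⟧`
  have hy : IsIntegral (PowerSeries ℤ) y := by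
    refine ⟨p, hp, ?_⟩
    apply ψ.injective
    rw [Polynomial.hom_eval₂, hψy, map_zero]
    have hcomp : ψ.comp (algebraMap (PowerSeries ℤ) K) = (algebraMap (PowerSeries ℂ) L).comp φ :=
      RingHom.ext hψ
    rw [hcomp, ← Polynomial.hom_eval₂, hpu, map_zero]
  obtain ⟨b, hb⟩ := IsIntegrallyClosed.isIntegral_iff.mp hy
  refine ⟨b, ?_⟩
  have hbd : b * d = a := by
    apply IsFractionRing.injective (PowerSeries ℤ) K
    rw [map_mul, hb]
    exact div_mul_cancel₀ _ hdK
  have hφd : φ d ≠ 0 := by
    intro h
    exact hd (hφinj (by rw [h, map_zero]))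
  have h2 : u * φ d = φ b * φ d := by
    rw [hud, ← map_mul, hbd]
  exact mul_right_cancel₀ hφd h2

end Fermat.Agent.S23
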