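/-
S23: calculus of "nice" functions on the upper half plane (1-periodic, holomorphic, bounded at
infinity) and their q-expansions; bounded-denominator power series.
-/
import Mathlib
import Fermat.Agent.S23.Defs

set_option autoImplicit false

namespace Fermat.Agent.S23

open UpperHalfPlane SlashInvariantForm CongruenceSubgroup Filter
open scoped MatrixGroups ModularForm Manifold Topology

/-- A function on `ℍ` which is `1`-periodic, holomorphic and bounded at `i∞`. -/
structure Nice (F : ℍ → ℂ) : Prop where
  per : Function.Periodic (F ∘ ofComplex) 1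
  holo : MDiff F
  bdd : IsBoundedAtImInfty F

namespace Nice

variable {F G : ℍ → ℂ}

lemma analytic (hF : Nice F) : AnalyticAt ℂ (cuspFunction 1 F) 0 :=
  analyticAt_cuspFunction_zero one_pos hF.per hF.holo hF.bdd

lemma zero : Nice (0 : ℍ → ℂ) where
  per := fun _ => rfl
  holo := fun _ => mdifferentiableAt_const
  bdd := zero_form_isBoundedAtImInfty

lemma const (c : ℂ) : Nice (fun _ => c : ℍ → ℂ) where
  per := fun _ => rfl
  holo := fun _ => mdifferentiableAt_const
  bdd := Filter.const_boundedAtFilter _ c

lemma one : Nice (1 : ℍ → ℂ) := const 1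

lemma add (hF : Nice F) (hG : Nice G) : Nice (F + G) where
  per := fun z => by
    have h1 := hF.per z
    have h2 := hG.per z
    simp only [Function.comp_apply, Pi.add_apply] at h1 h2 ⊢
    rw [h1, h2]
  holo := hF.holo.add hG.holo
  bdd := hF.bdd.add hG.bdd

lemma mul (hF : Nice F) (hG : Nice G) : Nice (F * G) where
  per := fun z => by
    have h1 := hF.per z
    have h2 := hG.per z
    simp only [Function.comp_apply, Pi.mul_apply] at h1 h2 ⊢
    rw [h1, h2]
  holo := hF.holo.mul hG.holo
  bdd := hF.bdd.mul hG.bdd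

lemma smul (c : ℂ) (hF : Nice F) : Nice (c • F) := by
  have : c • F = (fun _ => c : ℍ → ℂ) * F := by ext z; simp
  rw [this]
  exact (const c).mul hF

lemma neg (hF : Nice F) : Nice (-F) := by
  have : -F = (-1 : ℂ) • F := by ext z; simp
  rw [this]
  exact hF.smul _

lemma sub (hF : Nice F) (hG : Nice G) : Nice (F - G) := by
  rw [sub_eq_add_neg]
  exact hF.add hG.neg

lemma pow (hF : Nice F) (n : ℕ) : Nice (F ^ n) := by
  induction n with
  | zero => simpa using one
  | succ n ih => rw [pow_succ]; exact ih.mul hF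

lemma sum {ι : Type*} (s : Finset ι) {f : ι → ℍ → ℂ} (h : ∀ i ∈ s, Nice (f i)) :
    Nice (∑ i ∈ s, f i) := by
  classical
  induction s using Finset.induction_on with
  | empty => simpa using zero
  | insert a s ha ih =>
    rw [Finset.sum_insert ha]
    exact (h a (Finset.mem_insert_self a s)).add
      (ih fun i hi => h i (Finset.mem_insert_of_mem hi))

lemma prod {ι : Type*} (s : Finset ι) {f : ι → ℍ → ℂ} (h : ∀ i ∈ s, Nice (f i)) :
    Nice (∏ i ∈ s, f i) := by
  classical
  induction s using Finset.induction_on with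
  | empty => simpa using one
  | insert a s ha ih =>
    rw [Finset.prod_insert ha]
    exact (h a (Finset.mem_insert_self a s)).mul
      (ih fun i hi => h i (Finset.mem_insert_of_mem hi))

lemma qExp_add (hF : Nice F) (hG : Nice G) :
    qExpansion 1 (F + G) = qExpansion 1 F + qExpansion 1 G :=
  qExpansion_add hF.analytic hG.analytic

lemma qExp_mul (hF : Nice F) (hG : Nice G) :
    qExpansion 1 (F * G) = qExpansion 1 F * qExpansion 1 G :=
  qExpansion_mul hF.analytic hG.analytic

lemma qExp_smul (c : ℂ) (hF : Nice F) : qExpansion 1 (c • F) = c • qExpansion 1 F :=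
  qExpansion_smul hF.analytic c

lemma qExp_neg (hF : Nice F) : qExpansion 1 (-F) = -qExpansion 1 F :=
  qExpansion_neg hF.analytic

lemma qExp_sub (hF : Nice F) (hG : Nice G) :
    qExpansion 1 (F - G) = qExpansion 1 F - qExpansion 1 G :=
  qExpansion_sub hF.analytic hG.analytic

lemma qExp_pow (hF : Nice F) (n : ℕ) : qExpansion 1 (F ^ n) = qExpansion 1 F ^ n := by
  induction n with
  | zero => simpa using qExpansion_one 1
  | succ n ih => rw [pow_succ, qExp_mul (hF.pow n) hF, ih, pow_succ]

lemma qExp_sum {ι : Type*} (s : Finset ι) {f : ι → ℍ → ℂ} (h : ∀ i ∈ s, Nice (f i)) :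
    qExpansion 1 (∑ i ∈ s, f i) = ∑ i ∈ s, qExpansion 1 (f i) := by
  classical
  induction s using Finset.induction_on with
  | empty => simpa using qExpansion_zero 1
  | insert a s ha ih =>
    rw [Finset.sum_insert ha, Finset.sum_insert ha,
      qExp_add (h a (Finset.mem_insert_self a s))
        (sum s fun i hi => h i (Finset.mem_insert_of_mem hi)),
      ih fun i hi => h i (Finset.mem_insert_of_mem hi)]

lemma qExp_eq_zero_iff (hF : Nice F) : qExpansion 1 F = 0 ↔ F = 0 :=
  qExpansion_eq_zero_iff one_pos hF.per hF.holo hF.bdd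

lemma eq_of_qExp_eq (hF : Nice F) (hG : Nice G) (h : qExpansion 1 F = qExpansion 1 G) :
    F = G := by
  have := (hF.sub hG).qExp_eq_zero_iff.mp (by rw [qExp_sub hF hG, h, sub_self])
  exact sub_eq_zero.mp this

end Nice

/-- Modular forms (on a group with strict period `1`) are nice. -/
lemma nice_of_modularForm {Γ : Subgroup (GL (Fin 2) ℝ)} {k : ℤ} {F : Type*} [FunLike F ℍ ℂ]
    [ModularFormClass F Γ k] (hΓ : (1 : ℝ) ∈ Γ.strictPeriods) (f : F) : Nice (f : ℍ → ℂ) :=
  haveI : Fact (IsCusp OnePoint.infty Γ) := ⟨Γ.isCusp_of_mem_strictPeriods one_pos hΓ⟩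
  { per := SlashInvariantFormClass.periodic_comp_ofComplex f hΓ
    holo := ModularFormClass.holo f
    bdd := ModularFormClass.bdd_at_infty f }

end Fermat.Agent.S23
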