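import Mathlib
import Fermat.Agent.S23.Defs

/-!
S23, package P1: every level-one modular form is a `ℂ`-linear combination of level-one forms
whose `q`-expansions have bounded denominators.

Proof: induction on the weight via `M_K = ℂ·E_K ⊕ Δ·M_{K-12}`, using that the Eisenstein series
`E_K` have rational `q`-expansions with bounded denominators and `Δ = (E₄³ - E₆²)/1728`.
-/

set_option autoImplicit false

namespace Fermat.Agent.S23

open UpperHalfPlane SlashInvariantForm CongruenceSubgroup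
open scoped MatrixGroups ModularForm Manifold

namespace P1

open ModularForm EisensteinSeries

/-! ### Closure properties of `BddDenom` -/

theorem bddDenom_zero : BddDenom 0 := ⟨1, one_pos, 0, by simp⟩

theorem bddDenom_one : BddDenom 1 := ⟨1, one_pos, 1, by simp⟩

theorem smul_map_eq (c : ℤ) (a : PowerSeries ℤ) :
    (c : ℂ) • a.map (Int.castRingHom ℂ) = (PowerSeries.C c * a).map (Int.castRingHom ℂ) := by
  rw [map_mul, PowerSeries.map_C, PowerSeries.smul_eq_C_mul]
  simp

theorem bddDenom_add {u v : PowerSeries ℂ} (hu : BddDenom u) (hv : BddDenom v) :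
    BddDenom (u + v) := by
  obtain ⟨M, hM, a, ha⟩ := hu
  obtain ⟨M', hM', b, hb⟩ := hv
  refine ⟨M * M', Nat.mul_pos hM hM', PowerSeries.C (M' : ℤ) * a + PowerSeries.C (M : ℤ) * b, ?_⟩
  have h1 : ((M * M' : ℕ) : ℂ) • (u + v)
      = (((M' : ℤ) : ℂ)) • ((M : ℂ) • u) + (((M : ℤ) : ℂ)) • ((M' : ℂ) • v) := by
    push_cast
    rw [smul_add, smul_smul, smul_smul, mul_comm (M' : ℂ) (M : ℂ)]
  rw [h1, ha, hb, map_add, ← smul_map_eq, ← smul_map_eq]

theorem bddDenom_mul {u v : PowerSeries ℂ} (hu : BddDenom u) (hv : BddDenom v) :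
    BddDenom (u * v) := by
  obtain ⟨M, hM, a, ha⟩ := hu
  obtain ⟨M', hM', b, hb⟩ := hv
  refine ⟨M * M', Nat.mul_pos hM hM', a * b, ?_⟩
  have h1 : ((M * M' : ℕ) : ℂ) • (u * v) = ((M : ℂ) • u) * ((M' : ℂ) • v) := by
    push_cast
    rw [smul_mul_smul_comm]
  rw [h1, ha, hb, map_mul]

theorem bddDenom_rat_smul (q : ℚ) {u : PowerSeries ℂ} (hu : BddDenom u) :
    BddDenom ((q : ℂ) • u) := by
  obtain ⟨M, hM, a, ha⟩ := hu
  refine ⟨q.den * M, Nat.mul_pos q.den_pos hM, PowerSeries.C q.num * a, ?_⟩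
  have hq : ((q.den : ℂ)) * (q : ℂ) = (q.num : ℂ) := by
    have := Rat.den_mul_eq_num q
    exact_mod_cast congrArg (fun x : ℚ => (x : ℂ)) this
  have h1 : ((q.den * M : ℕ) : ℂ) • ((q : ℂ) • u) = (q.num : ℂ) • ((M : ℂ) • u) := by
    push_cast
    rw [smul_smul, smul_smul, ← hq]
    ring_nf
  rw [h1, ha, ← smul_map_eq]

theorem bddDenom_neg {u : PowerSeries ℂ} (hu : BddDenom u) : BddDenom (-u) := by
  have := bddDenom_rat_smul (-1) hu
  simpa using this

theorem bddDenom_sub {u v : PowerSeries ℂ} (hu : BddDenom u) (hv : BddDenom v) :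
    BddDenom (u - v) := by
  rw [sub_eq_add_neg]
  exact bddDenom_add hu (bddDenom_neg hv)

theorem bddDenom_pow {u : PowerSeries ℂ} (hu : BddDenom u) (n : ℕ) : BddDenom (u ^ n) := by
  induction n with
  | zero => simpa using bddDenom_one
  | succ n ih => rw [pow_succ]; exact bddDenom_mul ih hu

/-! ### Eisenstein series and the discriminant -/

theorem bddDenom_E {k : ℕ} (hk : 3 ≤ k) (hk2 : Even k) : BddDenom (qExpansion 1 (E hk)) := by
  set r : ℚ := -(2 * k / bernoulli k) with hr
  refine ⟨r.den, r.den_pos,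
    PowerSeries.mk fun m => if m = 0 then (r.den : ℤ) else r.num * (ArithmeticFunction.sigma (k - 1) m : ℤ), ?_⟩
  ext m
  have hq : ((r.den : ℂ)) * (r : ℂ) = (r.num : ℂ) := by
    have := Rat.den_mul_eq_num r
    exact_mod_cast congrArg (fun x : ℚ => (x : ℂ)) this
  have hrC : (r : ℂ) = -(2 * k / bernoulli k : ℂ) := by
    rw [hr]; push_cast; ring
  rw [PowerSeries.coeff_smul, E_qExpansion_coeff hk hk2 m, PowerSeries.coeff_map,
    PowerSeries.coeff_mk]
  by_cases hm : m = 0
  · simp [hm]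
  · simp only [hm, if_false, smul_eq_mul]
    rw [← hrC, ← mul_assoc, hq]
    simp only [eq_intCast, Int.cast_mul, Int.cast_natCast]

/-- `E₄³ - E₆²` as a level one form of weight 12. -/
noncomputable def e4CubeSubE6Sq : ModularForm 𝒮ℒ 12 :=
  ModularForm.mcast (by decide) (E₄.pow 3) - ModularForm.mcast (by decide) (E₆.pow 2)

theorem bddDenom_discriminant : BddDenom (qExpansion 1 (CuspForm.discriminant)) := by
  have h1 : (CuspForm.discriminant : ℍ → ℂ) = ((1 / 1728 : ℚ) : ℂ) • (e4CubeSubE6Sq : ℍ → ℂ) := by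
    ext z
    rw [CuspForm.coe_discriminant, discriminant_eq_E₄_cube_sub_E₆_sq z]
    simp only [e4CubeSubE6Sq, coe_mcast, coe_pow, sub_apply, Pi.pow_apply, Pi.smul_apply,
      smul_eq_mul]
    push_cast
    ring
  have h2 : qExpansion 1 (e4CubeSubE6Sq : ℍ → ℂ) = qExpansion 1 E₄ ^ 3 - qExpansion 1 E₆ ^ 2 := by
    simp only [e4CubeSubE6Sq, FunLike.coe_sub, coe_mcast,
      ModularForm.qExpansion_sub one_pos one_mem_strictPeriods_SL,
      ModularForm.qExpansion_pow one_pos one_mem_strictPeriods_SL]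
  have h3 : qExpansion 1 (CuspForm.discriminant : ℍ → ℂ)
      = ((1 / 1728 : ℚ) : ℂ) • qExpansion 1 (e4CubeSubE6Sq : ℍ → ℂ) := by
    rw [h1]
    exact ModularForm.qExpansion_smul one_pos one_mem_strictPeriods_SL _ e4CubeSubE6Sq
  rw [h3, h2]
  exact bddDenom_rat_smul _ (bddDenom_sub (bddDenom_pow (bddDenom_E _ ⟨2, rfl⟩) 3)
    (bddDenom_pow (bddDenom_E _ ⟨3, rfl⟩) 2))

/-! ### The induction -/

/-- Level one forms of weight `K` whose `q`-expansion has bounded denominators. -/
def bddSet (K : ℤ) : Set (ModularForm 𝒮ℒ K) := {B | BddDenom (qExpansion 1 B)}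

/-- Multiplication by `Δ`, as a linear map `M_{K-12} → M_K`. -/
noncomputable def mulDisc (K : ℤ) : ModularForm 𝒮ℒ (K - 12) →ₗ[ℂ] ModularForm 𝒮ℒ K :=
  CuspForm.toModularFormₗ ∘ₗ (CuspForm.discriminantEquiv (k := K)).symm.toLinearMap

theorem mulDisc_apply (K : ℤ) (g : ModularForm 𝒮ℒ (K - 12)) (z : ℍ) :
    mulDisc K g z = ModularForm.discriminant z * g z := rfl

theorem mulDisc_mem_bddSet (K : ℤ) {g : ModularForm 𝒮ℒ (K - 12)} (hg : g ∈ bddSet (K - 12)) :
    mulDisc K g ∈ bddSet K := by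
  show BddDenom (qExpansion 1 (mulDisc K g))
  have h1 : (mulDisc K g : ℍ → ℂ) = (CuspForm.discriminant : ℍ → ℂ) * (g : ℍ → ℂ) := by
    ext z; rfl
  rw [h1, ModularForm.qExpansion_mul_coe one_pos one_mem_strictPeriods_SL CuspForm.discriminant g]
  exact bddDenom_mul bddDenom_discriminant hg

theorem mem_span_bddSet (K : ℤ) (f : ModularForm 𝒮ℒ K) :
    f ∈ Submodule.span ℂ (bddSet K) := by
  induction' hn : K.toNat using Nat.strong_induction_on with n ih generalizing K
  rcases lt_or_ge K 0 with hneg | hnonneg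
  · -- negative weight
    have : f = 0 := DFunLike.coe_injective (ModularFormClass.levelOne_neg_weight_eq_zero hneg f)
    rw [this]; exact Submodule.zero_mem _
  rcases Int.even_or_odd K with hev | hodd
  swap
  · rw [ModularForm.levelOne_odd_weight_eq_zero hodd f]; exact Submodule.zero_mem _
  lift K to ℕ using hnonneg
  have hev' : Even K := by exact_mod_cast hev
  rcases Nat.lt_or_ge K 3 with hlt | hk
  · -- `K = 0` or `K = 2`
    have hK : K = 0 ∨ K = 2 := by
      rcases hev' with ⟨m, hm⟩; omega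
    rcases hK with rfl | rfl
    · obtain ⟨c, hc⟩ := ModularFormClass.levelOne_weight_zero_const f
      have h1 : f = c • (1 : ModularForm 𝒮ℒ 0) := by
        apply DFunLike.coe_injective
        rw [hc]; ext z; simp
      have h1' : f ∈ Submodule.span ℂ (bddSet ((0 : ℕ) : ℤ)) := by
        rw [h1]
        refine Submodule.smul_mem _ _ (Submodule.subset_span ?_)
        show BddDenom (qExpansion 1 (1 : ModularForm 𝒮ℒ 0))
        rw [ModularForm.qExpansion_one]
        exact bddDenom_one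
      exact h1'
    · have : f = 0 := rank_zero_iff_forall_zero.mp levelOne_weight_two_rank_zero f
      rw [this]; exact Submodule.zero_mem _
  · -- `K ≥ 4` even
    set a₀ : ℂ := (qExpansion 1 f).coeff 0 with ha₀
    set g₀ : ModularForm 𝒮ℒ (K : ℤ) := f - a₀ • E hk with hg₀
    have hcoeff : (qExpansion 1 g₀).coeff 0 = 0 := by
      rw [hg₀, FunLike.coe_sub, ModularForm.qExpansion_sub one_pos one_mem_strictPeriods_SL,
        FunLike.coe_smul, ModularForm.qExpansion_smul one_pos one_mem_strictPeriods_SL, map_sub,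
        PowerSeries.coeff_smul, E_qExpansion_coeff_zero hk hev', smul_eq_mul, mul_one, sub_self]
    set g : ModularForm 𝒮ℒ ((K : ℤ) - 12) := CuspForm.discriminantEquiv (toCuspForm g₀ hcoeff) with hg
    have hgspan : g ∈ Submodule.span ℂ (bddSet ((K : ℤ) - 12)) :=
      ih ((K : ℤ) - 12).toNat (by rw [← hn]; omega) _ g rfl
    have hmul : mulDisc K g ∈ Submodule.span ℂ (bddSet (K : ℤ)) := by
      have := Submodule.mem_map_of_mem (f := mulDisc K) hgspan
      refine (Submodule.map_span_le (mulDisc K) _ _).2 ?_ this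
      intro B hB
      exact Submodule.subset_span (mulDisc_mem_bddSet K hB)
    have hf : f = a₀ • E hk + mulDisc K g := by
      ext z
      have h2 : ModularForm.discriminant z * g z = g₀ z := by
        rw [hg, discriminant_mul_discriminantEquiv_apply, toCuspForm_apply]
      rw [add_apply, mulDisc_apply, h2, hg₀]
      simp
    rw [hf]
    exact Submodule.add_mem _ (Submodule.smul_mem _ _ (Submodule.subset_span (bddDenom_E hk hev')))
      hmul

end P1

theorem levelOne_span_bddDenom (K : ℤ) (E : ModularForm 𝒮ℒ K) :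
    ∃ (n : ℕ) (c : Fin n → ℂ) (B : Fin n → ModularForm 𝒮ℒ K),
      (∀ i, BddDenom (qExpansion 1 (B i))) ∧ E = ∑ i, c i • B i := by
  obtain ⟨n, c, B, h⟩ := Submodule.mem_span_set'.1 (P1.mem_span_bddSet K E)
  exact ⟨n, c, fun i => (B i : ModularForm 𝒮ℒ K), fun i => (B i).2, h.symm⟩

end Fermat.Agent.S23
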