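/-
S23, package P2: the elementary symmetric functions and the Lagrange numerators of the
`SL(2,ℤ)`-translates of forms on an arithmetic subgroup are level-one forms, together with the
Vieta / Lagrange identities (statements exactly as in the S23 task list).

Thin wrappers over the generic development in `Fermat.Agent.S23.H16.SymmTranslates`.
-/
import Fermat.Agent.S23.Defs
import Fermat.Agent.S23.H16.SymmTranslates

set_option autoImplicit false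

namespace Fermat.Agent.S23

open UpperHalfPlane SlashInvariantForm CongruenceSubgroup
open scoped MatrixGroups ModularForm Manifold

namespace P2

variable {𝒢 : Subgroup (GL (Fin 2) ℝ)} [𝒢.IsArithmetic] {k w : ℤ}

theorem esymmFun_eq {F : Type*} [FunLike F ℍ ℂ] [SlashInvariantFormClass F 𝒢 k] (f : F)
    (m : ℕ) : esymmFun f m = H16.esymmFun 𝒮ℒ f m := rfl

theorem lagrFun_eq {F G : Type*} [FunLike F ℍ ℂ] [FunLike G ℍ ℂ]
    [SlashInvariantFormClass F 𝒢 k] [SlashInvariantFormClass G 𝒢 w] (f : F) (g : G) (m : ℕ) :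
    lagrFun f g m = H16.lagrangeFun 𝒮ℒ f g m := rfl

theorem diffFun_eq {G : Type*} [FunLike G ℍ ℂ] [SlashInvariantFormClass G 𝒢 w] (g : G) :
    diffFun g = H16.discFun 𝒮ℒ g := rfl

omit [𝒢.IsArithmetic] in
theorem idx_eq : idx 𝒢 = Nat.card (𝒮ℒ ⧸ (𝒢.subgroupOf 𝒮ℒ)) := rfl

end P2

variable {𝒢 : Subgroup (GL (Fin 2) ℝ)} [𝒢.IsArithmetic] {k w : ℤ}

theorem exists_esymm_modularForm (f : ModularForm 𝒢 k) (m : ℕ) :
    ∃ E : ModularForm 𝒮ℒ (m * k), (E : ℍ → ℂ) = esymmFun f m :=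
  ⟨ModularForm.mcast (mul_comm k m) (H16.esymmForm 𝒮ℒ f m), rfl⟩

theorem exists_esymm_cuspForm (f : CuspForm 𝒢 k) (m : ℕ) (hm : 1 ≤ m) :
    ∃ E : CuspForm 𝒮ℒ (m * k), (E : ℍ → ℂ) = esymmFun f m :=
  ⟨CuspForm.mcast (mul_comm k m) (H16.esymmCuspForm 𝒮ℒ f (Nat.one_le_iff_ne_zero.mp hm)), rfl⟩

theorem exists_lagr_modularForm (f : ModularForm 𝒢 k) (g : ModularForm 𝒢 w) (m : ℕ) :
    ∃ E : ModularForm 𝒮ℒ (k + m * w), (E : ℍ → ℂ) = lagrFun f g m :=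
  ⟨ModularForm.mcast (by rw [mul_comm]) (H16.lagrangeForm 𝒮ℒ f g m), (P2.lagrFun_eq f g m).symm⟩

theorem exists_lagr_cuspForm (f : CuspForm 𝒢 k) (g : ModularForm 𝒢 w) (m : ℕ) :
    ∃ E : CuspForm 𝒮ℒ (k + m * w), (E : ℍ → ℂ) = lagrFun f g m :=
  ⟨CuspForm.mcast (by rw [mul_comm]) (H16.lagrangeCuspForm 𝒮ℒ f g m),
    (P2.lagrFun_eq f g m).symm⟩

theorem esymm_relation {F : Type*} [FunLike F ℍ ℂ] [SlashInvariantFormClass F 𝒢 k] (f : F)
    (z : ℍ) :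
    ∑ m ∈ Finset.range (idx 𝒢 + 1), (-1 : ℂ) ^ m * esymmFun f m z * f z ^ (idx 𝒢 - m) = 0 :=
  H16.monic_relation 𝒮ℒ f z

theorem lagr_relation {F G : Type*} [FunLike F ℍ ℂ] [FunLike G ℍ ℂ]
    [SlashInvariantFormClass F 𝒢 k] [SlashInvariantFormClass G 𝒢 w] (f : F) (g : G) (z : ℍ) :
    f z * diffFun g z =
      ∑ m ∈ Finset.range (idx 𝒢), (-1 : ℂ) ^ m * lagrFun f g m z * g z ^ (idx 𝒢 - 1 - m) := by
  simp only [P2.lagrFun_eq, P2.diffFun_eq]
  exact H16.lagrange_relation 𝒮ℒ f g z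

theorem diffFun_ne_zero (g : ModularForm 𝒢 w)
    (hg : ∀ q : 𝒮ℒ ⧸ (𝒢.subgroupOf 𝒮ℒ), q ≠ QuotientGroup.mk (1 : 𝒮ℒ) →
      quotientFunc g q ≠ (g : ℍ → ℂ)) :
    diffFun g ≠ 0 := by
  classical
  intro h0
  rw [diffFun, UpperHalfPlane.prod_eq_zero_iff
    (fun q _ => (ModularFormClass.holo g).sub (H16.mdiff_quotientFunc g q))] at h0
  obtain ⟨q, hq, hq0⟩ := h0
  exact hg q (Finset.mem_erase.mp hq).1 (sub_eq_zero.mp hq0).symm

theorem idx_pos : 0 < idx 𝒢 :=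
  Nat.card_pos

/-- Bonus (not in the task list): the "different" `diffFun g` is itself a combination of the
level-one forms `esymmFun g m` and powers of `g`:
`D_g = ∑_{m < μ} (-1)^m (μ - m) e_m(g) g^(μ-1-m)`. -/
theorem diff_relation {G : Type*} [FunLike G ℍ ℂ] [SlashInvariantFormClass G 𝒢 w] (g : G)
    (z : ℍ) :
    diffFun g z =
      ∑ m ∈ Finset.range (idx 𝒢),
        (-1 : ℂ) ^ m * ((idx 𝒢 - m : ℕ) : ℂ) * esymmFun g m z * g z ^ (idx 𝒢 - 1 - m) := by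
  simp only [P2.diffFun_eq]
  exact H16.disc_relation 𝒮ℒ g z

/-- Bonus: `diffFun g` is holomorphic. -/
theorem mdiff_diffFun (g : ModularForm 𝒢 w) : MDiff (diffFun g) := by
  rw [P2.diffFun_eq]
  exact H16.mdiff_discFun 𝒮ℒ g

/-- Bonus: every translate `quotientFunc f q` is a root of the monic relation. -/
theorem esymm_relation_quotientFunc {F : Type*} [FunLike F ℍ ℂ] [SlashInvariantFormClass F 𝒢 k]
    (f : F) (q : 𝒮ℒ ⧸ (𝒢.subgroupOf 𝒮ℒ)) (z : ℍ) :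
    ∑ m ∈ Finset.range (idx 𝒢 + 1),
      (-1 : ℂ) ^ m * esymmFun f m z * quotientFunc f q z ^ (idx 𝒢 - m) = 0 :=
  H16.monic_relation_quotientFunc 𝒮ℒ f q z

/-- Bonus: `esymmFun f 0 = 1` (the relation is monic). -/
theorem esymmFun_zero {F : Type*} [FunLike F ℍ ℂ] [SlashInvariantFormClass F 𝒢 k] (f : F) :
    esymmFun f 0 = 1 :=
  H16.esymmFun_zero 𝒮ℒ f

end Fermat.Agent.S23
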