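/-
S23, package P3: separating modular form of weight 4 on `Gamma0 N`, with bounded denominators,
none of whose nontrivial `SL(2, ℤ)`-translates equals it.  Proved by helper21 in
`Fermat.Agent.S23.H21.SepForm`; this file restates it under the name fixed in the S23 plan.
-/
import Fermat.Agent.S23.H21.SepForm

set_option autoImplicit false

namespace Fermat.Agent.S23

open UpperHalfPlane SlashInvariantForm CongruenceSubgroup
open scoped MatrixGroups ModularForm Manifold

theorem exists_separating (N : ℕ) [NeZero N] :
    ∃ g : ModularForm (Gamma0 N) 4, BddDenom (qExpansion 1 g) ∧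
      ∀ γ : SL(2, ℤ), γ ∉ Gamma0 N → (g : ℍ → ℂ) ∣[(4 : ℤ)] γ ≠ (g : ℍ → ℂ) :=
  H21.exists_separating N

end Fermat.Agent.S23
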