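/-
S23: power series with bounded denominators form a subring of `ℂ⟦X⟧` fixed by every ring
endomorphism of `ℂ` acting on coefficients.
-/
import Mathlib
import Fermat.Agent.S23.Defs

set_option autoImplicit false

namespace Fermat.Agent.S23

open PowerSeries

/-- The coefficient-wise inclusion `ℤ⟦X⟧ → ℂ⟦X⟧`. -/
noncomputable abbrev intIncl : PowerSeries ℤ →+* PowerSeries ℂ :=
  PowerSeries.map (Int.castRingHom ℂ)

lemma intIncl_injective : Function.Injective intIncl := by
  intro a b h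
  ext n
  have := congrArg (PowerSeries.coeff n) h
  simpa using this

lemma natCast_smul_eq (M : ℕ) (u : PowerSeries ℂ) : (M : ℂ) • u = (M : PowerSeries ℂ) * u := by
  rw [Nat.cast_smul_eq_nsmul, nsmul_eq_mul]

lemma bddDenom_iff (u : PowerSeries ℂ) :
    BddDenom u ↔ ∃ M : ℕ, 0 < M ∧ ∃ a : PowerSeries ℤ, (M : PowerSeries ℂ) * u = intIncl a := by
  simp only [BddDenom, natCast_smul_eq]

namespace BddDenom

variable {u v : PowerSeries ℂ}

lemma of_int (a : PowerSeries ℤ) : BddDenom (intIncl a) :=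
  ⟨1, one_pos, a, by simp⟩

lemma zero : BddDenom 0 := by simpa using of_int 0

lemma one : BddDenom 1 := by simpa using of_int 1

lemma add (hu : BddDenom u) (hv : BddDenom v) : BddDenom (u + v) := by
  rw [bddDenom_iff] at hu hv ⊢
  obtain ⟨M, hM, a, ha⟩ := hu
  obtain ⟨M', hM', b, hb⟩ := hv
  refine ⟨M * M', Nat.mul_pos hM hM', (M' : PowerSeries ℤ) * a + (M : PowerSeries ℤ) * b, ?_⟩
  simp only [map_add, map_mul, map_natCast, ← ha, ← hb, Nat.cast_mul]
  ring

lemma mul (hu : BddDenom u) (hv : BddDenom v) : BddDenom (u * v) := by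
  rw [bddDenom_iff] at hu hv ⊢
  obtain ⟨M, hM, a, ha⟩ := hu
  obtain ⟨M', hM', b, hb⟩ := hv
  refine ⟨M * M', Nat.mul_pos hM hM', a * b, ?_⟩
  simp only [map_mul, ← ha, ← hb, Nat.cast_mul]
  ring

lemma neg (hu : BddDenom u) : BddDenom (-u) := by
  rw [bddDenom_iff] at hu ⊢
  obtain ⟨M, hM, a, ha⟩ := hu
  exact ⟨M, hM, -a, by simp only [map_neg, ← ha]; ring⟩

/-- The subring of bounded-denominator power series. -/
def subring : Subring (PowerSeries ℂ) where
  carrier := {u | BddDenom u}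
  mul_mem' := fun hu hv => hu.mul hv
  one_mem' := one
  add_mem' := fun hu hv => hu.add hv
  zero_mem' := zero
  neg_mem' := fun hu => hu.neg

lemma mem_subring : u ∈ subring ↔ BddDenom u := Iff.rfl

lemma sub (hu : BddDenom u) (hv : BddDenom v) : BddDenom (u - v) :=
  subring.sub_mem hu hv

lemma pow (hu : BddDenom u) (n : ℕ) : BddDenom (u ^ n) :=
  subring.pow_mem hu n

lemma sum {ι : Type*} (s : Finset ι) {f : ι → PowerSeries ℂ} (h : ∀ i ∈ s, BddDenom (f i)) :
    BddDenom (∑ i ∈ s, f i) :=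
  subring.sum_mem h

lemma prod {ι : Type*} (s : Finset ι) {f : ι → PowerSeries ℂ} (h : ∀ i ∈ s, BddDenom (f i)) :
    BddDenom (∏ i ∈ s, f i) :=
  subring.prod_mem h

lemma rat_smul (r : ℚ) (hu : BddDenom u) : BddDenom ((r : ℂ) • u) := by
  obtain ⟨M, hM, a, ha⟩ := hu
  refine ⟨r.den * M, Nat.mul_pos r.den_pos hM, (r.num : PowerSeries ℤ) * a, ?_⟩
  have hden : (r.den : ℂ) ≠ 0 := by exact_mod_cast r.den_ne_zero
  have hr : (r : ℂ) * (r.den : ℂ) = (r.num : ℂ) := by
    exact_mod_cast Rat.mul_den_eq_num r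
  rw [map_mul, ← ha, map_intCast]
  ext n
  rw [show ((r.num : ℤ) : PowerSeries ℂ) = PowerSeries.C ((r.num : ℤ) : ℂ) from
    (map_intCast (PowerSeries.C (R := ℂ)) r.num).symm, PowerSeries.coeff_C_mul]
  simp only [PowerSeries.coeff_smul, smul_eq_mul, Nat.cast_mul]
  linear_combination (M : ℂ) * (PowerSeries.coeff n u) * hr

lemma coeff_rat (hu : BddDenom u) (n : ℕ) : ∃ r : ℚ, PowerSeries.coeff n u = (r : ℂ) := by
  obtain ⟨M, hM, a, ha⟩ := hu
  have hM' : (M : ℂ) ≠ 0 := by exact_mod_cast hM.ne'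
  have := congrArg (PowerSeries.coeff n) ha
  simp only [PowerSeries.coeff_smul, PowerSeries.coeff_map, smul_eq_mul, eq_intCast] at this
  refine ⟨((PowerSeries.coeff n a : ℤ) : ℚ) / (M : ℚ), ?_⟩
  push_cast
  rw [eq_div_iff hM', mul_comm]
  exact this

/-- Bounded-denominator series are fixed by ring endomorphisms of `ℂ` acting on coefficients. -/
lemma map_eq (hu : BddDenom u) (σ : ℂ →+* ℂ) : PowerSeries.map σ u = u := by
  ext n
  obtain ⟨r, hr⟩ := hu.coeff_rat n
  simp [hr]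

end BddDenom

end Fermat.Agent.S23
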