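/-
S23, package P8: the space of cusp forms on `Gamma0 N` is stable under the coefficientwise
action of ring endomorphisms of `ℂ` on `q`-expansions.

Strategy (Lagrange interpolation over level one).  Let `g` be a separating form on `Gamma0 N`
whose `q`-expansion is fixed by `σ`, `D = ∏_{q ≠ 1} (g - g_q)`.  Then
`f * D = ∑_m (-1)^m h_m g^(μ-1-m)`, `D = ∑_m (-1)^m (μ-m) e_m(g) g^(μ-1-m)` with level-one
forms `h_m`, `e_m(g)`, and `f` is a root of the monic polynomial with coefficients the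
level-one forms `e_m(f)`.  Conjugating all level-one forms gives functions `Fσ`, `Dσ` and a monic
relation showing that `Fσ / Dσ` is holomorphic, invariant, and vanishes at the cusps.
-/
import Mathlib
import Fermat.Prelude.Thm_CongruenceSubgroup_one_mem_strictPeriods_Gamma0
import Fermat.Agent.S23.Nice
import Fermat.Agent.S23.Bdd
import Fermat.Agent.S23.H16.SymmTranslates
import Fermat.Agent.S23.H18.LevelOne
import Fermat.Agent.S23.H40.HoloQuotient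
import Fermat.Agent.S23.P2_Esymm
import Fermat.Agent.S23.P3_Separating
import Fermat.Agent.S23.H21.SepQuot

set_option autoImplicit false

namespace Fermat.Agent.S23.P8

open UpperHalfPlane ModularForm SlashInvariantForm CongruenceSubgroup Filter Finset
open scoped MatrixGroups ModularForm Manifold Topology

/-! ### Conjugate pairs of nice functions -/

/-- `Φ'` is a `σ`-conjugate of `Φ`: both are nice and the `q`-expansion of `Φ'` is the
coefficientwise image under `σ` of the `q`-expansion of `Φ`. -/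
structure Conj (σ : ℂ →+* ℂ) (Φ Φ' : ℍ → ℂ) : Prop where
  left : Nice Φ
  right : Nice Φ'
  qexp : qExpansion 1 Φ' = (qExpansion 1 Φ).map σ

namespace Conj

variable {σ : ℂ →+* ℂ} {Φ Φ' Ψ Ψ' : ℍ → ℂ}

lemma zero : Conj σ 0 0 := ⟨Nice.zero, Nice.zero, by rw [qExpansion_zero, map_zero]⟩

lemma one : Conj σ 1 1 := ⟨Nice.one, Nice.one, by rw [qExpansion_one, map_one]⟩

lemma add (h : Conj σ Φ Φ') (h' : Conj σ Ψ Ψ') : Conj σ (Φ + Ψ) (Φ' + Ψ') :=
  ⟨h.left.add h'.left, h.right.add h'.right, by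
    rw [Nice.qExp_add h.right h'.right, Nice.qExp_add h.left h'.left, map_add, h.qexp, h'.qexp]⟩

lemma mul (h : Conj σ Φ Φ') (h' : Conj σ Ψ Ψ') : Conj σ (Φ * Ψ) (Φ' * Ψ') :=
  ⟨h.left.mul h'.left, h.right.mul h'.right, by
    rw [Nice.qExp_mul h.right h'.right, Nice.qExp_mul h.left h'.left, map_mul, h.qexp, h'.qexp]⟩

lemma neg (h : Conj σ Φ Φ') : Conj σ (-Φ) (-Φ') :=
  ⟨h.left.neg, h.right.neg, by
    rw [Nice.qExp_neg h.right, Nice.qExp_neg h.left, map_neg, h.qexp]⟩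

lemma pow (h : Conj σ Φ Φ') (n : ℕ) : Conj σ (Φ ^ n) (Φ' ^ n) := by
  induction n with
  | zero => simpa using one
  | succ n ih => rw [pow_succ, pow_succ]; exact ih.mul h

lemma sum {ι : Type*} (s : Finset ι) {A A' : ι → ℍ → ℂ} (h : ∀ i ∈ s, Conj σ (A i) (A' i)) :
    Conj σ (∑ i ∈ s, A i) (∑ i ∈ s, A' i) := by
  classical
  induction s using Finset.induction_on with
  | empty => simpa using zero
  | insert a s ha ih =>
    rw [Finset.sum_insert ha, Finset.sum_insert ha]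
    exact (h a (Finset.mem_insert_self a s)).add
      (ih fun i hi => h i (Finset.mem_insert_of_mem hi))

lemma natCast (n : ℕ) : Conj σ (n : ℍ → ℂ) (n : ℍ → ℂ) := by
  induction n with
  | zero => simpa using zero
  | succ n ih => rw [Nat.cast_succ]; exact ih.add one

lemma of_fixed (h : Nice Φ) (hσ : (qExpansion 1 Φ).map σ = qExpansion 1 Φ) : Conj σ Φ Φ :=
  ⟨h, h, hσ.symm⟩

lemma eq_zero (h : Conj σ Φ Φ') (h0 : Φ = 0) : Φ' = 0 := by
  rw [← h.right.qExp_eq_zero_iff, h.qexp, h0, qExpansion_zero, map_zero]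

lemma ne_zero (h : Conj σ Φ Φ') (h0 : Φ ≠ 0) : Φ' ≠ 0 := by
  intro h1
  apply h0
  rw [← h.left.qExp_eq_zero_iff]
  have h2 : (qExpansion 1 Φ).map σ = 0 := by rw [← h.qexp, h1, qExpansion_zero]
  ext n
  have h3 := congrArg (PowerSeries.coeff n) h2
  rw [PowerSeries.coeff_map, map_zero] at h3
  rw [map_zero]
  exact (map_eq_zero σ).mp h3

end Conj

/-- Level-one modular forms have conjugates. -/
lemma exists_conj_levelOne (σ : ℂ →+* ℂ) {K : ℤ} (F : ModularForm 𝒮ℒ K) :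
    ∃ F' : ModularForm 𝒮ℒ K, Conj σ F F' := by
  obtain ⟨F', hF'⟩ := H18.exists_conj σ F
  exact ⟨F', nice_of_modularForm one_mem_strictPeriods_SL F,
    nice_of_modularForm one_mem_strictPeriods_SL F', hF'⟩

/-- Level-one cusp forms have conjugates which are cusp forms. -/
lemma exists_conj_levelOne_cusp (σ : ℂ →+* ℂ) {K : ℤ} (F : CuspForm 𝒮ℒ K) :
    ∃ F' : CuspForm 𝒮ℒ K, Conj σ F F' := by
  obtain ⟨F', hF'⟩ := H18.exists_conj_cuspForm σ F
  exact ⟨F', nice_of_modularForm one_mem_strictPeriods_SL F,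
    nice_of_modularForm one_mem_strictPeriods_SL F', hF'⟩

/-! ### Slash invariance as a predicate on functions -/

/-- Weight-`w` slash invariance under `𝒢`, as a predicate on functions. -/
def SlInv (𝒢 : Subgroup (GL (Fin 2) ℝ)) (Φ : ℍ → ℂ) (w : ℤ) : Prop :=
  ∀ γ ∈ 𝒢, Φ ∣[w] γ = Φ

namespace SlInv

variable {𝒢 ℋ : Subgroup (GL (Fin 2) ℝ)} {Φ Ψ : ℍ → ℂ} {w w' : ℤ}

lemma of_form {F : Type*} [FunLike F ℍ ℂ] [SlashInvariantFormClass F 𝒢 w] (f : F) :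
    SlInv 𝒢 f w :=
  fun γ hγ => SlashInvariantFormClass.slash_action_eq f γ hγ

lemma mono (h : SlInv ℋ Φ w) (hle : 𝒢 ≤ ℋ) : SlInv 𝒢 Φ w := fun γ hγ => h γ (hle hγ)

lemma cast (h : SlInv 𝒢 Φ w) (hw : w = w') : SlInv 𝒢 Φ w' := hw ▸ h

lemma zero : SlInv 𝒢 0 w := fun γ _ => SlashAction.zero_slash w γ

lemma add (h : SlInv 𝒢 Φ w) (h' : SlInv 𝒢 Ψ w) : SlInv 𝒢 (Φ + Ψ) w := fun γ hγ => by
  rw [SlashAction.add_slash, h γ hγ, h' γ hγ]

lemma neg (h : SlInv 𝒢 Φ w) : SlInv 𝒢 (-Φ) w := fun γ hγ => by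
  rw [SlashAction.neg_slash, h γ hγ]

lemma sum {ι : Type*} (s : Finset ι) {A : ι → ℍ → ℂ} (h : ∀ i ∈ s, SlInv 𝒢 (A i) w) :
    SlInv 𝒢 (∑ i ∈ s, A i) w := fun γ hγ => by
  rw [SlashAction.sum_slash]
  exact Finset.sum_congr rfl fun i hi => h i hi γ hγ

lemma one [𝒢.HasDetPlusMinusOne] : SlInv 𝒢 1 0 := fun γ hγ => by
  have hdet : |γ.val.det| = 1 := by
    have := Subgroup.HasDetPlusMinusOne.abs_det hγ
    simpa using this
  ext τ
  simp [ModularForm.slash_apply, hdet]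

lemma mul [𝒢.HasDetPlusMinusOne] (h : SlInv 𝒢 Φ w) (h' : SlInv 𝒢 Ψ w') :
    SlInv 𝒢 (Φ * Ψ) (w + w') := fun γ hγ => by
  rw [ModularForm.mul_slash, Subgroup.HasDetPlusMinusOne.abs_det hγ, one_smul, h γ hγ, h' γ hγ]

lemma pow [𝒢.HasDetPlusMinusOne] (h : SlInv 𝒢 Φ w) (n : ℕ) : SlInv 𝒢 (Φ ^ n) (w * n) := by
  induction n with
  | zero => simpa using one
  | succ n ih =>
    rw [pow_succ]
    exact (ih.mul h).cast (by push_cast; ring)

lemma natCast [𝒢.HasDetPlusMinusOne] (n : ℕ) : SlInv 𝒢 (n : ℍ → ℂ) 0 := by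
  induction n with
  | zero => simpa using zero
  | succ n ih => rw [Nat.cast_succ]; exact ih.add one

end SlInv

/-! ### The three polynomial expressions -/

/-- `∑_{m < μ} (-1)^m L_m G^(μ-1-m)`. -/
def lagSum (μ : ℕ) (L : ℕ → ℍ → ℂ) (G : ℍ → ℂ) : ℍ → ℂ :=
  ∑ m ∈ range μ, (-1 : ℍ → ℂ) ^ m * L m * G ^ (μ - 1 - m)

/-- `∑_{m < μ} (-1)^m (μ - m) E_m G^(μ-1-m)`. -/
def discSum (μ : ℕ) (E : ℕ → ℍ → ℂ) (G : ℍ → ℂ) : ℍ → ℂ :=
  ∑ m ∈ range μ, (-1 : ℍ → ℂ) ^ m * ((μ - m : ℕ) : ℍ → ℂ) * E m * G ^ (μ - 1 - m)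

/-- `A^μ + ∑_{1 ≤ m ≤ μ} (-1)^m P_m A^(μ-m) B^m`. -/
def monicFun (μ : ℕ) (P : ℕ → ℍ → ℂ) (A B : ℍ → ℂ) : ℍ → ℂ :=
  A ^ μ + ∑ m ∈ Icc 1 μ, (-1 : ℍ → ℂ) ^ m * P m * A ^ (μ - m) * B ^ m

lemma lagSum_apply (μ : ℕ) (L : ℕ → ℍ → ℂ) (G : ℍ → ℂ) (z : ℍ) :
    lagSum μ L G z = ∑ m ∈ range μ, (-1 : ℂ) ^ m * L m z * G z ^ (μ - 1 - m) := by
  simp [lagSum, Finset.sum_apply]

lemma discSum_apply (μ : ℕ) (E : ℕ → ℍ → ℂ) (G : ℍ → ℂ) (z : ℍ) :
    discSum μ E G z =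
      ∑ m ∈ range μ, (-1 : ℂ) ^ m * ((μ - m : ℕ) : ℂ) * E m z * G z ^ (μ - 1 - m) := by
  simp [discSum, Finset.sum_apply]

lemma monicFun_apply (μ : ℕ) (P : ℕ → ℍ → ℂ) (A B : ℍ → ℂ) (z : ℍ) :
    monicFun μ P A B z =
      A z ^ μ + ∑ m ∈ Icc 1 μ, (-1 : ℂ) ^ m * P m z * A z ^ (μ - m) * B z ^ m := by
  simp [monicFun, Finset.sum_apply]

section Templates

variable {σ : ℂ →+* ℂ} {μ : ℕ} {L L' : ℕ → ℍ → ℂ} {G G' A A' B B' : ℍ → ℂ}

lemma Conj.lagSum (hL : ∀ m, Conj σ (L m) (L' m)) (hG : Conj σ G G') :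
    Conj σ (lagSum μ L G) (lagSum μ L' G') :=
  Conj.sum _ fun m _ => ((Conj.one.neg.pow m).mul (hL m)).mul (hG.pow _)

lemma Conj.discSum (hL : ∀ m, Conj σ (L m) (L' m)) (hG : Conj σ G G') :
    Conj σ (discSum μ L G) (discSum μ L' G') :=
  Conj.sum _ fun m _ =>
    (((Conj.one.neg.pow m).mul (Conj.natCast _)).mul (hL m)).mul (hG.pow _)

lemma Conj.monicFun (hL : ∀ m, Conj σ (L m) (L' m)) (hA : Conj σ A A') (hB : Conj σ B B') :
    Conj σ (monicFun μ L A B) (monicFun μ L' A' B') :=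
  (hA.pow μ).add (Conj.sum _ fun m _ =>
    (((Conj.one.neg.pow m).mul (hL m)).mul (hA.pow _)).mul (hB.pow m))

variable {𝒢 : Subgroup (GL (Fin 2) ℝ)} [𝒢.HasDetPlusMinusOne] {a w : ℤ}

lemma SlInv.lagSum (hL : ∀ m, SlInv 𝒢 (L m) (a + w * m)) (hG : SlInv 𝒢 G w) :
    SlInv 𝒢 (lagSum μ L G) (a + w * ((μ : ℤ) - 1)) :=
  SlInv.sum _ fun m hm => by
    have hm' : m < μ := Finset.mem_range.mp hm
    refine ((((SlInv.one.neg).pow m).mul (hL m)).mul (hG.pow (μ - 1 - m))).cast ?_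
    have h1 : ((μ - 1 - m : ℕ) : ℤ) = (μ : ℤ) - 1 - m := by omega
    rw [h1]
    ring

lemma SlInv.discSum (hL : ∀ m, SlInv 𝒢 (L m) (w * m)) (hG : SlInv 𝒢 G w) :
    SlInv 𝒢 (discSum μ L G) (w * ((μ : ℤ) - 1)) :=
  SlInv.sum _ fun m hm => by
    have hm' : m < μ := Finset.mem_range.mp hm
    refine (((((SlInv.one.neg).pow m).mul (SlInv.natCast _)).mul (hL m)).mul
      (hG.pow (μ - 1 - m))).cast ?_
    have h1 : ((μ - 1 - m : ℕ) : ℤ) = (μ : ℤ) - 1 - m := by omega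
    rw [h1]
    ring

end Templates

/-! ### Algebraic lemmas on monic relations -/

lemma sum_range_succ_eq_Icc {M : Type*} [AddCommMonoid M] (μ : ℕ) (a : ℕ → M) :
    ∑ m ∈ range (μ + 1), a m = a 0 + ∑ m ∈ Icc 1 μ, a m := by
  rw [Finset.range_eq_Ico, Finset.sum_eq_sum_Ico_succ_bot (Nat.succ_pos μ)]
  congr 1

/-- Homogenisation of a monic relation. -/
lemma monic_homog (μ : ℕ) (e : ℕ → ℂ) (x d : ℂ) (he0 : e 0 = 1)
    (h : ∑ m ∈ range (μ + 1), (-1 : ℂ) ^ m * e m * x ^ (μ - m) = 0) :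
    (x * d) ^ μ + ∑ m ∈ Icc 1 μ, (-1 : ℂ) ^ m * e m * (x * d) ^ (μ - m) * d ^ m = 0 := by
  rw [sum_range_succ_eq_Icc] at h
  simp only [pow_zero, he0, one_mul, Nat.sub_zero] at h
  have key : ∀ m ∈ Icc 1 μ, (-1 : ℂ) ^ m * e m * (x * d) ^ (μ - m) * d ^ m =
      d ^ μ * ((-1 : ℂ) ^ m * e m * x ^ (μ - m)) := by
    intro m hm
    have hm' : m ≤ μ := (Finset.mem_Icc.mp hm).2
    have h1 : d ^ μ = d ^ (μ - m) * d ^ m := by rw [← pow_add, Nat.sub_add_cancel hm']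
    rw [mul_pow, h1]
    ring
  rw [Finset.sum_congr rfl key, ← Finset.mul_sum, mul_pow, mul_comm (x ^ μ), ← mul_add, h,
    mul_zero]

/-- Rescaling of a monic relation. -/
lemma monic_scale (μ : ℕ) (a : ℕ → ℂ) (x e : ℂ)
    (h : x ^ μ + ∑ m ∈ Icc 1 μ, a m * x ^ (μ - m) = 0) :
    (x * e) ^ μ + ∑ m ∈ Icc 1 μ, (a m * e ^ m) * (x * e) ^ (μ - m) = 0 := by
  have key : ∀ m ∈ Icc 1 μ, (a m * e ^ m) * (x * e) ^ (μ - m) = e ^ μ * (a m * x ^ (μ - m)) := by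
    intro m hm
    have hm' : m ≤ μ := (Finset.mem_Icc.mp hm).2
    have h1 : e ^ μ = e ^ (μ - m) * e ^ m := by rw [← pow_add, Nat.sub_add_cancel hm']
    rw [mul_pow, h1]
    ring
  rw [Finset.sum_congr rfl key, ← Finset.mul_sum, mul_pow, mul_comm (x ^ μ), ← mul_add, h,
    mul_zero]

/-! ### The main construction -/

section Main

variable {N : ℕ} [NeZero N] {k w : ℤ}

local notation "Γ" => Subgroup.map (Matrix.SpecialLinearGroup.mapGL ℝ) (Gamma0 N)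

/-- Level-one forms are invariant under the `SL(2, ℤ)`-slash action. -/
lemma levelOne_SL_slash {K : ℤ} (P : ModularForm 𝒮ℒ K) (γ : SL(2, ℤ)) :
    (P : ℍ → ℂ) ∣[K] γ = P :=
  (ModularForm.SL_slash (P : ℍ → ℂ) γ).trans
    (SlashInvariantFormClass.slash_action_eq P _ ⟨γ, rfl⟩)

/-- Conjugates of the elementary symmetric functions of the translates of a cusp form. -/
lemma exists_conj_esymm (σ : ℂ →+* ℂ) (f : CuspForm (Gamma0 N) k) (m : ℕ) :
    ∃ P' : ModularForm 𝒮ℒ (k * m), Conj σ (H16.esymmFun 𝒮ℒ f m) P' ∧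
      (m ≠ 0 → IsZeroAtImInfty (P' : ℍ → ℂ)) := by
  by_cases hm : m = 0
  · obtain ⟨P', hP'⟩ := exists_conj_levelOne σ (H16.esymmForm 𝒮ℒ f m)
    exact ⟨P', hP', fun h => absurd hm h⟩
  · obtain ⟨P', hP'⟩ := exists_conj_levelOne_cusp σ (H16.esymmCuspForm 𝒮ℒ f hm)
    exact ⟨CuspForm.toModularFormₗ P', hP', fun _ => CuspFormClass.zero_at_infty P'⟩

lemma lagSum_lagrange (f : CuspForm (Gamma0 N) k) (g : ModularForm (Gamma0 N) w) :
    lagSum (Nat.card (𝒮ℒ ⧸ (Γ).subgroupOf 𝒮ℒ)) (fun m => H16.lagrangeFun 𝒮ℒ f g m) g =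
      ⇑f * H16.discFun 𝒮ℒ g := by
  funext z
  rw [lagSum_apply, Pi.mul_apply, H16.lagrange_relation 𝒮ℒ f g z]

lemma discSum_esymm (g : ModularForm (Gamma0 N) w) :
    discSum (Nat.card (𝒮ℒ ⧸ (Γ).subgroupOf 𝒮ℒ)) (fun m => H16.esymmFun 𝒮ℒ g m) g =
      H16.discFun 𝒮ℒ g := by
  funext z
  rw [discSum_apply, H16.disc_relation 𝒮ℒ g z]

lemma monicFun_esymm (f : CuspForm (Gamma0 N) k) (D : ℍ → ℂ) :
    monicFun (Nat.card (𝒮ℒ ⧸ (Γ).subgroupOf 𝒮ℒ)) (fun m => H16.esymmFun 𝒮ℒ f m) (⇑f * D) D = 0 := by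
  funext z
  rw [monicFun_apply, Pi.mul_apply, Pi.zero_apply]
  exact monic_homog _ (fun m => H16.esymmFun 𝒮ℒ f m z) (f z) (D z)
    (by simp [H16.esymmFun_zero]) (H16.monic_relation 𝒮ℒ f z)

/-- **Conjugation of cusp forms, given a separating form fixed by `σ`.** -/
theorem exists_conj_of_separating (σ : ℂ →+* ℂ) (g : ModularForm (Gamma0 N) w)
    (hgσ : (qExpansion 1 g).map σ = qExpansion 1 g)
    (hsep : ∀ γ : SL(2, ℤ), γ ∉ Gamma0 N → (g : ℍ → ℂ) ∣[w] γ ≠ (g : ℍ → ℂ))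
    (f : CuspForm (Gamma0 N) k) :
    ∃ f' : CuspForm (Gamma0 N) k, qExpansion 1 f' = (qExpansion 1 f).map σ := by
  classical
  set μ : ℕ := Nat.card (𝒮ℒ ⧸ (Γ).subgroupOf 𝒮ℒ) with hμ
  have hμpos : 0 < μ := Nat.card_pos
  have hΓ1 : (1 : ℝ) ∈ (Γ).strictPeriods := CongruenceSubgroup.one_mem_strictPeriods_Gamma0 N
  have hΓle : Γ ≤ 𝒮ℒ := Subgroup.map_le_range _ _
  have hgN : Nice (g : ℍ → ℂ) := nice_of_modularForm hΓ1 g
  have hfN : Nice (f : ℍ → ℂ) := nice_of_modularForm hΓ1 f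
  have hgC : Conj σ g g := Conj.of_fixed hgN hgσ
  -- the discriminant factor
  set D : ℍ → ℂ := H16.discFun 𝒮ℒ g with hD
  have hD0 : D ≠ 0 := diffFun_ne_zero g (H21.quotientFunc_ne_of_slash_ne N g hsep)
  -- conjugates of the level-one forms
  choose H' hH' using fun m => exists_conj_levelOne_cusp σ (H16.lagrangeCuspForm 𝒮ℒ f g m)
  choose E' hE' using fun m => exists_conj_levelOne σ (H16.esymmForm 𝒮ℒ g m)
  choose P' hP' hP'0 using fun m => exists_conj_esymm σ f m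
  set Fσ : ℍ → ℂ := lagSum μ (fun m => ⇑(H' m)) g with hFσ
  set Dσ : ℍ → ℂ := discSum μ (fun m => ⇑(E' m)) g with hDσ
  have hFC : Conj σ (⇑f * D) Fσ := by
    rw [hD, ← lagSum_lagrange f g]
    exact Conj.lagSum (fun m => hH' m) hgC
  have hDC : Conj σ D Dσ := by
    rw [hD, ← discSum_esymm g]
    exact Conj.discSum (fun m => hE' m) hgC
  have hDσ0 : Dσ ≠ 0 := hDC.ne_zero hD0
  have hrel : monicFun μ (fun m => ⇑(P' m)) Fσ Dσ = 0 :=
    (Conj.monicFun (fun m => hP' m) hFC hDC).eq_zero (monicFun_esymm f D)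
  -- the holomorphic quotient
  obtain ⟨φ, hφ, hφD, hφmonic⟩ := H40.exists_mdifferentiable_quotient hμpos Fσ Dσ
    hFC.right.holo hDC.right.holo hDσ0 (fun m z => (-1 : ℂ) ^ m * P' m z)
    (fun m => continuous_const.mul (ModularFormClass.holo (P' m)).continuous)
    (fun z => by
      have h := congrFun hrel z
      rw [monicFun_apply] at h
      exact h)
  have hφD' : φ * Dσ = Fσ := funext hφD
  -- invariance
  have hFinv : SlInv Γ Fσ (k + w * ((μ : ℤ) - 1)) :=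
    SlInv.lagSum (fun m => (SlInv.of_form (H' m)).mono hΓle) (SlInv.of_form g)
  have hDinv : SlInv Γ Dσ (w * ((μ : ℤ) - 1)) :=
    SlInv.discSum (fun m => (SlInv.of_form (E' m)).mono hΓle) (SlInv.of_form g)
  have hφinv : ∀ γ ∈ Γ, φ ∣[k] γ = φ := by
    intro γ hγ
    have h1 : (φ ∣[k] γ) * Dσ = φ * Dσ := by
      have h := hFinv γ hγ
      rw [← hφD', ModularForm.mul_slash, Subgroup.HasDetPlusMinusOne.abs_det hγ, one_smul,
        hDinv γ hγ] at h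
      exact h
    have h2 : (φ ∣[k] γ - φ) * Dσ = 0 := by rw [sub_mul, h1, sub_self]
    rcases (UpperHalfPlane.mul_eq_zero_iff ((MDifferentiable.slash hφ k γ).sub hφ)
      hDC.right.holo).mp h2 with h | h
    · exact sub_eq_zero.mp h
    · exact absurd h hDσ0
  -- vanishing at the cusps
  have hφcusp : ∀ γ : SL(2, ℤ), IsZeroAtImInfty (φ ∣[k] γ) := by
    intro γ
    refine H40.tendsto_zero_of_monic_root (n := μ) (fun m z => (-1 : ℂ) ^ m * P' m z) _ ?_ ?_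
    · intro m hm1 _
      have h : Tendsto (P' m : ℍ → ℂ) atImInfty (𝓝 0) := hP'0 m (by omega)
      simpa using h.const_mul ((-1 : ℂ) ^ m)
    · intro z
      have hP : ∀ m, (P' m : ℍ → ℂ) z = P' m (γ • z) *
          (denom (Matrix.SpecialLinearGroup.toGL
            ((Matrix.SpecialLinearGroup.map (Int.castRingHom ℝ)) γ)) z ^ (-k)) ^ m := by
        intro m
        have h := congrFun (levelOne_SL_slash (P' m) γ) z
        rw [ModularForm.SL_slash_apply] at h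
        rw [← h, ← zpow_natCast, ← zpow_mul]
        congr 2
        ring
      have h := monic_scale μ (fun m => (-1 : ℂ) ^ m * P' m (γ • z)) (φ (γ • z))
        (denom (Matrix.SpecialLinearGroup.toGL
            ((Matrix.SpecialLinearGroup.map (Int.castRingHom ℝ)) γ)) z ^ (-k)) (hφmonic (γ • z))
      rw [ModularForm.SL_slash_apply]
      rw [← h]
      congr 1
      refine Finset.sum_congr rfl fun m _ => ?_
      rw [hP m]
      ring
  -- the conjugate cusp form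
  let f' : CuspForm (Gamma0 N) k :=
    { toFun := φ
      slash_action_eq' := hφinv
      holo' := hφ
      zero_at_cusps' := fun {c} hc => by
        have hc' : IsCusp c 𝒮ℒ := (Subgroup.IsArithmetic.isCusp_iff_isCusp_SL2Z Γ).mp hc
        exact (OnePoint.isZeroAt_iff_forall_SL2Z hc').mpr fun γ _ => hφcusp γ }
  refine ⟨f', ?_⟩
  have hf'N : Nice (f' : ℍ → ℂ) := nice_of_modularForm hΓ1 f'
  have hcoe : (f' : ℍ → ℂ) = φ := rfl
  have h1 : qExpansion 1 (f' : ℍ → ℂ) * qExpansion 1 Dσ = qExpansion 1 Fσ := by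
    rw [← Nice.qExp_mul hf'N hDC.right, hcoe, hφD']
  have h0 : qExpansion 1 Dσ ≠ 0 := fun h => hDσ0 (hDC.right.qExp_eq_zero_iff.mp h)
  rw [hFC.qexp, Nice.qExp_mul hfN hDC.left, map_mul, ← hDC.qexp] at h1
  exact mul_right_cancel₀ h0 h1

end Main

end Fermat.Agent.S23.P8

namespace Fermat.Agent.S23

open UpperHalfPlane CongruenceSubgroup

/-- **Package P8.** The space of cusp forms on `Gamma0 N` is stable under the coefficientwise
action of ring automorphisms of `ℂ` on `q`-expansions. -/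
theorem exists_conj (N : ℕ) [NeZero N] (k : ℤ) (σ : ℂ ≃+* ℂ) (f : CuspForm (Gamma0 N) k) :
    ∃ f' : CuspForm (Gamma0 N) k,
      ∀ n, (qExpansion 1 f').coeff n = σ ((qExpansion 1 f).coeff n) := by
  obtain ⟨g, hg, hsep⟩ := exists_separating N
  obtain ⟨f', hf'⟩ := P8.exists_conj_of_separating (σ : ℂ →+* ℂ) g (hg.map_eq _) hsep f
  exact ⟨f', fun n => by rw [hf', PowerSeries.coeff_map]; rfl⟩

/-- Variant of `exists_conj` for arbitrary ring endomorphisms of `ℂ`, in power series form. -/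
theorem exists_conj_ringHom (N : ℕ) [NeZero N] (k : ℤ) (σ : ℂ →+* ℂ)
    (f : CuspForm (Gamma0 N) k) :
    ∃ f' : CuspForm (Gamma0 N) k, qExpansion 1 f' = (qExpansion 1 f).map σ := by
  obtain ⟨g, hg, hsep⟩ := exists_separating N
  exact P8.exists_conj_of_separating σ g (hg.map_eq _) hsep f

end Fermat.Agent.S23
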