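import Mathlib
import Fermat.Agent.S23.Defs
import Fermat.Agent.S23.H19.AutComplex

/-!
S23, package P4: a complex number fixed by every ring automorphism of `ℂ` is rational.
(The proof is `Fermat.Agent.S23.H19.mem_range_ratCast_of_forall_ringAut_fixed`.)
-/

set_option autoImplicit false

namespace Fermat.Agent.S23

theorem exists_rat_of_forall_ringEquiv_fixed (x : ℂ) (h : ∀ σ : ℂ ≃+* ℂ, σ x = x) :
    ∃ r : ℚ, x = (r : ℂ) := by
  obtain ⟨q, hq⟩ := H19.mem_range_ratCast_of_forall_ringAut_fixed x h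
  exact ⟨q, hq.symm⟩

end Fermat.Agent.S23
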