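import Mathlib
import Fermat.Agent.S23.Defs
import Fermat.Agent.S23.H19.Descent

/-!
S23, package P5: a `ℂ`-subspace of `ι → ℂ` (`ι` finite) stable under the coordinatewise action of
all ring automorphisms of `ℂ` is spanned by its rational points.
(The proof is `Fermat.Agent.S23.H19.span_rat_points_of_ringAut_stable`.)
-/

set_option autoImplicit false

namespace Fermat.Agent.S23

theorem span_rational_of_stable {ι : Type*} [Finite ι] (W : Submodule ℂ (ι → ℂ))
    (hW : ∀ σ : ℂ ≃+* ℂ, ∀ w ∈ W, (fun i => σ (w i)) ∈ W) :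
    W ≤ Submodule.span ℂ {w | w ∈ W ∧ ∀ i, ∃ r : ℚ, w i = (r : ℂ)} := by
  have h := H19.span_rat_points_of_ringAut_stable W hW
  intro w hw
  rw [← h] at hw
  refine Submodule.span_mono ?_ hw
  rintro v ⟨hvW, hv⟩
  exact ⟨hvW, fun i => (hv i).imp fun q hq => hq.symm⟩

end Fermat.Agent.S23
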