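/-
S23, package P7 (complex-analysis core): holomorphic quotient from a monic relation, root bound,
and the identity-theorem consequence `f * g = 0 → f = 0 ∨ g = 0` on the upper half-plane.
-/
import Fermat.Agent.S23.H40.HoloQuotient

set_option autoImplicit false

namespace Fermat.Agent.S23

open UpperHalfPlane
open scoped Manifold

namespace P7

/-- Reindexing `∑_{m < μ} a m = ∑_{j=1}^{μ} a (μ - j)`. -/
theorem sum_range_eq_sum_Icc_sub {M : Type*} [AddCommMonoid M] (μ : ℕ) (a : ℕ → M) :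
    ∑ m ∈ Finset.range μ, a m = ∑ j ∈ Finset.Icc 1 μ, a (μ - j) := by
  refine Finset.sum_bij' (fun m _ => μ - m) (fun j _ => μ - j) ?_ ?_ ?_ ?_ ?_
  · intro m hm
    rw [Finset.mem_range] at hm
    rw [Finset.mem_Icc]
    omega
  · intro j hj
    rw [Finset.mem_Icc] at hj
    rw [Finset.mem_range]
    omega
  · intro m hm
    rw [Finset.mem_range] at hm
    omega
  · intro j hj
    rw [Finset.mem_Icc] at hj
    omega
  · intro m hm
    rw [Finset.mem_range] at hm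
    congr 1
    omega

end P7

theorem exists_mdiff_quotient {μ : ℕ} (F D : ℍ → ℂ) (c : ℕ → ℍ → ℂ)
    (hF : MDiff F) (hD : MDiff D) (hD0 : D ≠ 0) (hc : ∀ m, Continuous (c m))
    (hrel : ∀ z, F z ^ μ + ∑ m ∈ Finset.range μ, c m z * F z ^ m * D z ^ (μ - m) = 0) :
    ∃ φ : ℍ → ℂ, MDiff φ ∧ ∀ z, φ z * D z = F z := by
  rcases Nat.eq_zero_or_pos μ with h0 | hpos
  · exfalso
    have h := hrel UpperHalfPlane.I
    rw [h0] at h
    simp at h
  · obtain ⟨φ, hφ, hφD, -⟩ := H40.exists_mdifferentiable_quotient hpos F D hF hD hD0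
      (fun m => c (μ - m)) (fun m => hc (μ - m)) (by
        intro z
        have h := hrel z
        rw [P7.sum_range_eq_sum_Icc_sub] at h
        rw [← h]
        congr 1
        apply Finset.sum_congr rfl
        intro j hj
        rw [Finset.mem_Icc] at hj
        have : μ - (μ - j) = j := by omega
        rw [this])
    exact ⟨φ, hφ, hφD⟩

theorem norm_pow_le_of_monic_root {μ : ℕ} (x : ℂ) (c : ℕ → ℂ)
    (hx : x ^ μ + ∑ m ∈ Finset.range μ, c m * x ^ m = 0) :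
    ‖x‖ ^ μ ≤ (∑ m ∈ Finset.range μ, ‖c m‖) + (∑ m ∈ Finset.range μ, ‖c m‖) ^ μ := by
  set S : ℝ := ∑ m ∈ Finset.range μ, ‖c m‖ with hS
  have hS0 : 0 ≤ S := Finset.sum_nonneg (fun m _ => norm_nonneg _)
  have h1 : x ^ μ = -∑ m ∈ Finset.range μ, c m * x ^ m := eq_neg_of_add_eq_zero_left hx
  have h2 : ‖x‖ ^ μ ≤ ∑ m ∈ Finset.range μ, ‖c m‖ * ‖x‖ ^ m := by
    calc ‖x‖ ^ μ = ‖x ^ μ‖ := (norm_pow x μ).symm
      _ = ‖∑ m ∈ Finset.range μ, c m * x ^ m‖ := by rw [h1, norm_neg]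
      _ ≤ ∑ m ∈ Finset.range μ, ‖c m * x ^ m‖ := norm_sum_le _ _
      _ = ∑ m ∈ Finset.range μ, ‖c m‖ * ‖x‖ ^ m := by
        apply Finset.sum_congr rfl
        intro m _
        rw [norm_mul, norm_pow]
  rcases le_or_gt ‖x‖ 1 with hle | hgt
  · have h3 : ∑ m ∈ Finset.range μ, ‖c m‖ * ‖x‖ ^ m ≤ S := by
      apply Finset.sum_le_sum
      intro m _
      have : ‖x‖ ^ m ≤ 1 := pow_le_one₀ (norm_nonneg x) hle
      calc ‖c m‖ * ‖x‖ ^ m ≤ ‖c m‖ * 1 := by gcongr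
        _ = ‖c m‖ := mul_one _
    have h4 : 0 ≤ S ^ μ := pow_nonneg hS0 μ
    linarith
  · rcases Nat.eq_zero_or_pos μ with h0 | hpos
    · exfalso
      rw [h0] at hx
      simp at hx
    · have hxpos : 0 < ‖x‖ := by linarith
      have h3 : ∑ m ∈ Finset.range μ, ‖c m‖ * ‖x‖ ^ m ≤ S * ‖x‖ ^ (μ - 1) := by
        rw [hS, Finset.sum_mul]
        apply Finset.sum_le_sum
        intro m hm
        rw [Finset.mem_range] at hm
        have : ‖x‖ ^ m ≤ ‖x‖ ^ (μ - 1) := pow_le_pow_right₀ hgt.le (by omega)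
        gcongr
      have h4 : ‖x‖ ^ μ = ‖x‖ * ‖x‖ ^ (μ - 1) := by
        rw [← pow_succ']
        congr 1
        omega
      have h5 : 0 < ‖x‖ ^ (μ - 1) := pow_pos hxpos _
      have h6 : ‖x‖ ≤ S := by
        have : ‖x‖ * ‖x‖ ^ (μ - 1) ≤ S * ‖x‖ ^ (μ - 1) := by linarith
        exact le_of_mul_le_mul_right this h5
      have h7 : ‖x‖ ^ μ ≤ S ^ μ := pow_le_pow_left₀ (norm_nonneg x) h6 μ
      linarith

theorem mdiff_mul_eq_zero {f g : ℍ → ℂ} (hf : MDiff f) (hg : MDiff g) (h : f * g = 0) :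
    f = 0 ∨ g = 0 :=
  (UpperHalfPlane.mul_eq_zero_iff hf hg).mp h

end Fermat.Agent.S23
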